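import Fermat.Agent.Places.Basic

/-!
Elementary facts on the mod `p` cyclotomic character `ExtCitation.cycloExp`.
-/

set_option autoImplicit false

namespace FLTAgent.Reducible

local notation "QQb" => AlgebraicClosure ℚ
local notation "GG" => (AlgebraicClosure ℚ ≃ₐ[ℚ] AlgebraicClosure ℚ)

variable (p : ℕ) [hp : Fact p.Prime]

local instance neZeroP : NeZero p := ⟨hp.out.ne_zero⟩

/-- The mod `p` cyclotomic character as a homomorphism to `(ZMod p)ˣ`. -/
noncomputable def omegaChar : GG →* (ZMod p)ˣ :=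
  (modularCyclotomicCharacter QQb (ExtCitation.card_rootsOfUnity_eq_self p)).comp
    (MulSemiringAction.toRingAut GG QQb)

lemma omegaChar_eq (σ : GG) :
    ((omegaChar p σ : (ZMod p)ˣ) : ZMod p) = (ExtCitation.cycloExp p σ : ZMod p) := by
  simp only [ExtCitation.cycloExp]
  rw [ZMod.natCast_zmod_val]
  rfl

lemma map_eq_pow_cycloExp (σ : GG) {ζ : QQb} (hζ : ζ ^ p = 1) :
    σ ζ = ζ ^ ExtCitation.cycloExp p σ := by
  have hu : IsUnit ζ := IsUnit.of_pow_eq_one hζ hp.out.ne_zero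
  have h := modularCyclotomicCharacter.spec QQb (ExtCitation.card_rootsOfUnity_eq_self p)
    (σ : QQb ≃+* QQb) (t := hu.unit) ((mem_rootsOfUnity _ _).mpr (Units.ext (by simpa using hζ)))
  simpa [ExtCitation.cycloExp] using h

lemma exists_primitiveRoot : ∃ ζ : QQb, IsPrimitiveRoot ζ p := by
  have : NeZero (p : QQb) := ⟨Nat.cast_ne_zero.mpr hp.out.ne_zero⟩
  exact HasEnoughRootsOfUnity.exists_primitiveRoot QQb p

lemma omegaChar_eq_one_of_fix {σ : GG} {ζ : QQb} (hζ : IsPrimitiveRoot ζ p) (h : σ ζ = ζ) :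
    omegaChar p σ = 1 := by
  refine Units.ext ?_
  rw [omegaChar_eq, Units.val_one, ← Nat.cast_one, ZMod.natCast_eq_natCast_iff]
  rw [map_eq_pow_cycloExp p σ hζ.pow_eq_one] at h
  have hu : IsUnit ζ := hζ.isUnit hp.out.ne_zero
  have h' : hu.unit ^ ExtCitation.cycloExp p σ = hu.unit ^ 1 := Units.ext (by simp only [Units.val_pow_eq_pow_val, IsUnit.unit_spec, pow_one]; exact h)
  have h3 := pow_eq_pow_iff_modEq.mp h'
  rwa [← orderOf_units, IsUnit.unit_spec, ← hζ.eq_orderOf] at h3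

lemma isOpen_ker_omegaChar : IsOpen ((omegaChar p).ker : Set GG) := by
  obtain ⟨ζ, hζ⟩ := exists_primitiveRoot p
  have : Algebra.IsAlgebraic ℚ QQb := AlgebraicClosure.isAlgebraic ℚ
  refine Subgroup.isOpen_mono (fun σ hσ ↦ ?_) (stabilizer_isOpen_of_isIntegral (K := ℚ) ζ)
  exact omegaChar_eq_one_of_fix p hζ hσ

variable {p}

omit hp in
/-- Distinct `p`-th roots of unity stay distinct at places of residue characteristic `≠ p`. -/
lemma eq_one_of_sub_one_mem_nonunits {V : ValuationSubring QQb} {η : QQb} (hη : η ^ p = 1)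
    (hp' : (p : QQb) ∉ V.nonunits) (h : η - 1 ∈ V.nonunits) : η = 1 := by
  by_contra hne
  have hV : η ∈ V := by simpa using V.add_mem _ _ (V.nonunits_le h) V.one_mem
  let x : V := ⟨η, hV⟩
  have hx : x - 1 ∈ IsLocalRing.maximalIdeal V :=
    (ValuationSubring.coe_mem_nonunits_iff (A := V)).mp h
  have hres : IsLocalRing.residue V x = 1 := by
    rw [← map_one (IsLocalRing.residue V), ← sub_eq_zero, ← map_sub,
      IsLocalRing.residue_eq_zero_iff]
    exact hx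
  have hsum : ∑ i ∈ Finset.range p, x ^ i = 0 := by
    have h0 : (x - 1) * ∑ i ∈ Finset.range p, x ^ i = 0 := by
      rw [mul_geom_sum]
      exact Subtype.ext (by simp [x, hη])
    refine (mul_eq_zero.mp h0).resolve_left fun e ↦ hne ?_
    exact congrArg Subtype.val (sub_eq_zero.mp e)
  have := congrArg (IsLocalRing.residue V) hsum
  simp [hres, map_sum, map_pow] at this
  rw [← map_natCast (IsLocalRing.residue V), IsLocalRing.residue_eq_zero_iff,
    ← ValuationSubring.coe_mem_nonunits_iff] at this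
  exact hp' (by simpa using this)

lemma natCast_notMem_nonunits {V : ValuationSubring QQb} {ℓ m : ℕ} (hℓ : ℓ.Prime)
    (hV : V.LiesOverPrime ℓ) (hm : ¬ ℓ ∣ m) : (m : QQb) ∉ V.nonunits := by
  intro h
  have hc : ((m : ℕ) : integralClosure ℤ QQb) ∈ FLTAgent.Frobenius.centre V :=
    (FLTAgent.Frobenius.mem_centre_iff V).mpr (by simpa using h)
  have h' : (m : ℤ) ∈ (FLTAgent.Frobenius.centre V).under ℤ := by
    rw [Ideal.mem_comap, map_natCast]; exact hc
  rw [Places.under_int_eq hℓ (Places.natCast_mem_centre V hV), Ideal.mem_span_singleton] at h'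
  exact hm (Int.natCast_dvd_natCast.mp h')

/-- The cyclotomic character is trivial on inertia away from `p`. -/
lemma omegaChar_eq_one_of_inertia {ℓ : ℕ} (hℓ : ℓ.Prime) (hℓp : ℓ ≠ p)
    {V : ValuationSubring QQb} (hV : V.LiesOverPrime ℓ) {σ : GG}
    (hσ : σ ∈ V.inertiaSubgroupIn ℚ) : omegaChar p σ = 1 := by
  obtain ⟨ζ, hζ⟩ := exists_primitiveRoot p
  refine omegaChar_eq_one_of_fix p hζ ?_
  have hp' := natCast_notMem_nonunits hℓ hV
    (fun h ↦ hℓp ((Nat.prime_dvd_prime_iff_eq hℓ hp.out).mp h))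
  have hζV : ζ ∈ V := by
    simpa using FLTAgent.Frobenius.integralClosure_le V ⟨ζ, hζ.isIntegral hp.out.pos⟩
  have hinv : ζ⁻¹ ∈ V := by
    simpa using FLTAgent.Frobenius.integralClosure_le V ⟨ζ⁻¹, hζ.inv.isIntegral hp.out.pos⟩
  have h := ((Places.mem_inertia_iff V).mp hσ).2 ζ hζV
  have h1 : σ ζ * ζ⁻¹ - 1 ∈ V.nonunits := by
    rw [show σ ζ * ζ⁻¹ - 1 = (σ ζ - ζ) * ζ⁻¹ by rw [sub_mul, mul_inv_cancel₀ (hζ.ne_zero hp.out.ne_zero)]]
    rw [← SetLike.mem_coe, ← ValuationSubring.image_maximalIdeal] at h ⊢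
    obtain ⟨u, hu, hu'⟩ := h
    exact ⟨u * ⟨_, hinv⟩, Ideal.mul_mem_right _ _ hu, by rw [← hu']; rfl⟩
  have h2 := eq_one_of_sub_one_mem_nonunits (p := p)
    (by rw [mul_pow, ← map_pow, hζ.pow_eq_one, map_one, inv_pow, hζ.pow_eq_one, inv_one, one_mul])
    hp' h1
  rwa [mul_inv_eq_one₀ (hζ.ne_zero hp.out.ne_zero)] at h2

/-- A Frobenius element at `ℓ ≠ p` has cyclotomic character `ℓ`. -/
lemma omegaChar_frobenius {ℓ : ℕ} (hℓ : ℓ.Prime) (hℓp : ℓ ≠ p)
    {V : ValuationSubring QQb} (hV : V.LiesOverPrime ℓ) {σ : GG}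
    (hσ : V.IsFrobeniusAt σ ℓ) : ((omegaChar p σ : (ZMod p)ˣ) : ZMod p) = ℓ := by
  obtain ⟨ζ, hζ⟩ := exists_primitiveRoot p
  have hp' := natCast_notMem_nonunits hℓ hV
    (fun h ↦ hℓp ((Nat.prime_dvd_prime_iff_eq hℓ hp.out).mp h))
  have hζV : ζ ∈ V := by
    simpa using FLTAgent.Frobenius.integralClosure_le V ⟨ζ, hζ.isIntegral hp.out.pos⟩
  have hinv : ζ⁻¹ ∈ V := by
    simpa using FLTAgent.Frobenius.integralClosure_le V ⟨ζ⁻¹, hζ.inv.isIntegral hp.out.pos⟩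
  have h := hσ.smul_residue_eq (IsLocalRing.residue V ⟨ζ, hζV⟩)
  change IsLocalRing.residue V ((⟨σ, hσ.mem_decompositionSubgroup⟩ :
    V.decompositionSubgroup ℚ) • ⟨ζ, hζV⟩) = _ at h
  rw [← map_pow, ← sub_eq_zero, ← map_sub, IsLocalRing.residue_eq_zero_iff] at h
  have h' : σ ζ - ζ ^ ℓ ∈ V.nonunits := (ValuationSubring.coe_mem_nonunits_iff (A := V)).mpr h
  have h1 : σ ζ * (ζ⁻¹) ^ ℓ - 1 ∈ V.nonunits := by
    rw [show σ ζ * (ζ⁻¹) ^ ℓ - 1 = (σ ζ - ζ ^ ℓ) * (ζ⁻¹) ^ ℓ by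
      rw [sub_mul, ← mul_pow, mul_inv_cancel₀ (hζ.ne_zero hp.out.ne_zero), one_pow]]
    rw [← SetLike.mem_coe, ← ValuationSubring.image_maximalIdeal] at h' ⊢
    obtain ⟨u, hu, hu'⟩ := h'
    exact ⟨u * ⟨_, pow_mem hinv ℓ⟩, Ideal.mul_mem_right _ _ hu, by rw [← hu']; rfl⟩
  have h2 := eq_one_of_sub_one_mem_nonunits (p := p)
    (by rw [mul_pow, ← map_pow, hζ.pow_eq_one, map_one, one_mul, ← pow_mul, mul_comm ℓ, pow_mul,
      inv_pow, hζ.pow_eq_one, inv_one, one_pow]) hp' h1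
  rw [inv_pow, mul_inv_eq_one₀ (pow_ne_zero _ (hζ.ne_zero hp.out.ne_zero))] at h2
  rw [map_eq_pow_cycloExp p σ hζ.pow_eq_one] at h2
  have hu : IsUnit ζ := hζ.isUnit hp.out.ne_zero
  have h3 := pow_eq_pow_iff_modEq.mp
    (show hu.unit ^ ExtCitation.cycloExp p σ = hu.unit ^ ℓ from Units.ext (by simpa using h2))
  rw [← orderOf_units, IsUnit.unit_spec, ← hζ.eq_orderOf] at h3
  rw [omegaChar_eq]
  exact (ZMod.natCast_eq_natCast_iff _ _ _).mpr h3

end FLTAgent.Reducible
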