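import Fermat.Agent.Reducible.Cyclotomic
import Fermat.Prelude.Def_ExtCitation_AdmissibleExtension_v2

/-!
A two-dimensional mod `p` representation with a stable line and the local behaviour of the Frey
representation has a cofixed line, given the vanishing of `Ext(μ_p, ℤ/p)` over `Spec ℤ`.
-/

set_option autoImplicit false

namespace FLTAgent.Reducible

open scoped Pointwise

local notation "QQb" => AlgebraicClosure ℚ
local notation "GG" => (AlgebraicClosure ℚ ≃ₐ[ℚ] AlgebraicClosure ℚ)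

variable {p : ℕ} [hp : Fact p.Prime]

/-- An everywhere unramified character with open kernel is trivial. -/
lemma eq_one_of_unramified {M : Type*} [CommGroup M] (χ : GG →* M)
    (hopen : IsOpen (χ.ker : Set GG))
    (h : ∀ ℓ : ℕ, ℓ.Prime → ∀ A : ValuationSubring QQb, A.LiesOverPrime ℓ →
      ∀ σ ∈ A.inertiaSubgroupIn ℚ, χ σ = 1) :
    ∀ σ, χ σ = 1 := by
  have := Places.eq_top_of_forall_inertia_le χ.ker hopen fun ℓ hℓ A hA σ hσ ↦ h ℓ hℓ A hA σ hσ
  exact fun σ ↦ (SetLike.ext_iff.mp this σ).mpr trivial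

/-- Characters agree on the inertia groups of conjugate places. -/
lemma forall_inertia_of_exists {M : Type*} [CommGroup M] (χ : GG →* M) {ℓ : ℕ} (hℓ : ℓ.Prime)
    {A₀ : ValuationSubring QQb} (hA₀ : A₀.LiesOverPrime ℓ)
    (h : ∀ σ ∈ A₀.inertiaSubgroupIn ℚ, χ σ = 1) {A : ValuationSubring QQb}
    (hA : A.LiesOverPrime ℓ) {σ : GG} (hσ : σ ∈ A.inertiaSubgroupIn ℚ) : χ σ = 1 := by
  obtain ⟨g, hg⟩ := Places.exists_smul_eq hℓ hA hA₀
  have := h _ (hg ▸ Places.conj_mem_inertia A hσ g)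
  simpa using this

variable {V : Type} [AddCommGroup V] [Module (ZMod p) V]

lemma finrank_eq_one (hV : Module.finrank (ZMod p) V = 2) {N : Submodule (ZMod p) V}
    (h0 : N ≠ ⊥) (h1 : N ≠ ⊤) : Module.finrank (ZMod p) N = 1 := by
  have : Module.Finite (ZMod p) V := Module.finite_of_finrank_eq_succ hV
  have hpos := Submodule.finrank_lt h1
  have : 0 < Module.finrank (ZMod p) N := Nat.pos_of_ne_zero fun h ↦
    h0 (Submodule.finrank_eq_zero.mp h)
  omega

/-- Two distinct lines of a plane are complementary. -/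
lemma isCompl_of_ne (hV : Module.finrank (ZMod p) V = 2) {N M : Submodule (ZMod p) V}
    (hN : N ≠ ⊥) (hN' : N ≠ ⊤) (hM : M ≠ ⊥) (hM' : M ≠ ⊤) (hne : N ≠ M) : IsCompl N M := by
  have : Module.Finite (ZMod p) V := Module.finite_of_finrank_eq_succ hV
  have e1 := finrank_eq_one hV hN hN'
  have e2 := finrank_eq_one hV hM hM'
  have hinf : N ⊓ M = ⊥ := by
    by_contra h
    have h2 : 0 < Module.finrank (ZMod p) (N ⊓ M : Submodule (ZMod p) V) :=
      Nat.pos_of_ne_zero fun h' ↦ h (Submodule.finrank_eq_zero.mp h')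
    have a := Submodule.eq_of_le_of_finrank_le (inf_le_left : N ⊓ M ≤ N) (by omega)
    have b := Submodule.eq_of_le_of_finrank_le (inf_le_right : N ⊓ M ≤ M) (by omega)
    exact hne (a.symm.trans b)
  refine ⟨disjoint_iff.mpr hinf, codisjoint_iff.mpr (Submodule.eq_top_of_finrank_eq ?_)⟩
  have := Submodule.finrank_sup_add_finrank_inf_eq N M
  rw [hinf, finrank_bot] at this
  omega

variable [DistribMulAction GG V] [SMulCommClass GG (ZMod p) V]

/-- The subgroup of elements acting trivially. -/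
def fixer (V : Type) [AddCommGroup V] [DistribMulAction GG V] : Subgroup GG where
  carrier := {σ | ∀ v : V, σ • v = v}
  mul_mem' {a b} ha hb v := by rw [mul_smul, hb v, ha v]
  one_mem' := one_smul GG
  inv_mem' {a} ha v := by
    conv_lhs => rw [← ha v]
    rw [inv_smul_smul]

/-- The characters on a stable line and on the quotient. -/
lemma exists_characters (hV : Module.finrank (ZMod p) V = 2) {N : Submodule (ZMod p) V}
    (hN0 : N ≠ ⊥) (hN1 : N ≠ ⊤) (hst : ∀ σ : GG, ∀ x ∈ N, σ • x ∈ N) :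
    ∃ ψ₁ ψ₂ : GG →* (ZMod p)ˣ,
      (∀ σ, ∀ x ∈ N, σ • x = (ψ₁ σ : ZMod p) • x) ∧
      (∀ σ (x : V), σ • x - (ψ₂ σ : ZMod p) • x ∈ N) ∧
      (∀ σ (a : ZMod p), (∀ x ∈ N, σ • x = a • x) → (ψ₁ σ : ZMod p) = a) ∧
      (∀ σ (a : ZMod p), (∀ x : V, σ • x - a • x ∈ N) → (ψ₂ σ : ZMod p) = a) := by
  have : Module.Finite (ZMod p) V := Module.finite_of_finrank_eq_succ hV
  have e1 := finrank_eq_one hV hN0 hN1
  have hq : Module.finrank (ZMod p) (V ⧸ N) = 1 := by
    have := N.finrank_quotient_add_finrank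
    omega
  have exu₁ : ∀ σ : GG, ∃! a : ZMod p, ∀ x ∈ N, σ • x = a • x := by
    intro σ
    obtain ⟨v, hv, hspan⟩ := finrank_eq_one_iff'.mp e1
    obtain ⟨a, ha⟩ := hspan ⟨σ • (v : V), hst σ v v.2⟩
    refine ⟨a, fun x hx ↦ ?_, fun b hb ↦ ?_⟩
    · obtain ⟨c, hc⟩ := hspan ⟨x, hx⟩
      have hx' : x = c • (v : V) := (congrArg Subtype.val hc).symm
      rw [hx', smul_comm σ c, smul_comm a c, show σ • (v : V) = a • (v : V) from
        (congrArg Subtype.val ha).symm]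
    · refine smul_left_injective (ZMod p) (Subtype.coe_ne_coe.mpr hv) ?_
      change b • (v : V) = a • (v : V)
      rw [← hb v v.2]
      exact (congrArg Subtype.val ha).symm
  have exu₂ : ∀ σ : GG, ∃! a : ZMod p, ∀ x : V, σ • x - a • x ∈ N := by
    intro σ
    obtain ⟨v, hv, hspan⟩ := finrank_eq_one_iff'.mp hq
    obtain ⟨v, rfl⟩ := N.mkQ_surjective v
    obtain ⟨a, ha⟩ := hspan (N.mkQ (σ • v))
    rw [← map_smul, Submodule.mkQ_apply, Submodule.mkQ_apply, Submodule.Quotient.eq] at ha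
    refine ⟨a, fun x ↦ ?_, fun b hb ↦ ?_⟩
    · obtain ⟨c, hc⟩ := hspan (N.mkQ x)
      rw [← map_smul, Submodule.mkQ_apply, Submodule.mkQ_apply, Submodule.Quotient.eq] at hc
      have h1 : σ • (c • v - x) ∈ N := hst σ _ hc
      rw [smul_sub, smul_comm σ c] at h1
      have h2 := N.smul_mem c ha
      have h3 := N.smul_mem a hc
      have : σ • x - a • x = a • (c • v - x) - (σ • (c • v) - σ • x) - c • (a • v - σ • v) := by
        rw [smul_sub, smul_sub, smul_comm σ c, smul_comm a c]; abel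
      rw [this, smul_comm σ c]
      exact N.sub_mem (N.sub_mem h3 h1) h2
    · refine smul_left_injective (ZMod p) hv ?_
      change b • N.mkQ v = a • N.mkQ v
      rw [← map_smul, ← map_smul, Submodule.mkQ_apply, Submodule.mkQ_apply, Submodule.Quotient.eq]
      have := hb v
      rw [show b • v - a • v = -(σ • v - b • v) - (a • v - σ • v) by abel]
      exact N.sub_mem (N.neg_mem this) ha
  choose f₁ hf₁ hu₁ using exu₁
  choose f₂ hf₂ hu₂ using exu₂
  let φ₁ : GG →* ZMod p :=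
    { toFun := f₁
      map_one' := (hu₁ 1 1 fun x _ ↦ by rw [one_smul, one_smul]).symm
      map_mul' := fun σ τ ↦ (hu₁ (σ * τ) _ fun x hx ↦ by
        rw [mul_smul, hf₁ τ x hx, smul_comm σ, hf₁ σ x hx, ← mul_smul, mul_comm]).symm }
  let φ₂ : GG →* ZMod p :=
    { toFun := f₂
      map_one' := (hu₂ 1 1 fun x ↦ by simp).symm
      map_mul' := fun σ τ ↦ (hu₂ (σ * τ) _ fun x ↦ by
        have h := N.add_mem (hst σ _ (hf₂ τ x)) (hf₂ σ (f₂ τ • x))
        rw [smul_sub, ← mul_smul σ τ, sub_add_sub_cancel, ← mul_smul] at h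
        exact h).symm }
  refine ⟨φ₁.toHomUnits, φ₂.toHomUnits, fun σ x hx ↦ ?_, fun σ x ↦ ?_, fun σ a h ↦ ?_,
    fun σ a h ↦ ?_⟩
  · simp only [MonoidHom.coe_toHomUnits]; exact hf₁ σ x hx
  · simp only [MonoidHom.coe_toHomUnits]; exact hf₂ σ x
  · simpa [φ₁] using (hu₁ σ a h).symm
  · simpa [φ₂] using (hu₂ σ a h).symm

/-- The main abstract statement. -/
theorem exists_cofixed_line (h5 : 5 ≤ p) (hV : Nat.card V = p ^ 2)
    (hopen : IsOpen {σ : GG | ∀ v : V, σ • v = v})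
    (hext : ExtCitation.ExtVanishingCts p)
    (hodd : ∀ ℓ : ℕ, ℓ.Prime → ℓ ≠ 2 → ℓ ≠ p → ∀ A : ValuationSubring QQb, A.LiesOverPrime ℓ →
      ∀ σ ∈ A.inertiaSubgroupIn ℚ, ∀ x : V, σ • x = x)
    (htwo : ∀ A : ValuationSubring QQb, A.LiesOverPrime 2 →
      ∃ L : Submodule (ZMod p) V, L ≠ ⊤ ∧
        (∀ σ ∈ A.inertiaSubgroupIn ℚ, (∀ x ∈ L, σ • x = x) ∧ ∀ x, σ • x - x ∈ L) ∧
        (∀ σ ∈ A.decompositionSubgroup ℚ, (∀ x, σ • x - x ∈ L) ∨ (∀ x, σ • x + x ∈ L)))
    (hatp : ∀ A : ValuationSubring QQb, A.LiesOverPrime p →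
      ∃ M : Submodule (ZMod p) V, M ≠ ⊥ ∧ M ≠ ⊤ ∧
        (∀ σ ∈ A.decompositionSubgroup ℚ, ∀ x ∈ M, σ • x ∈ M) ∧
        (∀ σ ∈ A.inertiaSubgroupIn ℚ, ∀ x ∈ M, σ • x = (ExtCitation.cycloExp p σ : ZMod p) • x) ∧
        (∀ σ ∈ A.inertiaSubgroupIn ℚ, ∀ x, σ • x - x ∈ M))
    {N : Submodule (ZMod p) V} (hN0 : N ≠ ⊥) (hN1 : N ≠ ⊤)
    (hst : ∀ σ : GG, ∀ x ∈ N, σ • x ∈ N) :
    ∃ N' : Submodule (ZMod p) V, (∀ σ : GG, ∀ x ∈ N', σ • x ∈ N') ∧ N' ≠ ⊥ ∧ N' ≠ ⊤ ∧
      ∀ (σ : GG) (x : V), σ • x - x ∈ N' := by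
  have hp2 : p ≠ 2 := by omega
  have : Finite V := Nat.finite_of_card_ne_zero (hV ▸ pow_ne_zero 2 hp.out.ne_zero)
  have hrank : Module.finrank (ZMod p) V = 2 := by
    have h := Module.natCard_eq_pow_finrank (K := ZMod p) (V := V)
    rw [hV, Nat.card_zmod] at h
    exact (Nat.pow_right_injective hp.out.two_le h).symm
  obtain ⟨ψ₁, ψ₂, hψ₁, hψ₂, hu₁, hu₂⟩ := exists_characters hrank hN0 hN1 hst
  have hfixOpen : IsOpen ((fixer V : Subgroup GG) : Set GG) := hopen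
  have hopen₁ : IsOpen (ψ₁.ker : Set GG) := Subgroup.isOpen_mono (fun σ hσ ↦ Units.ext
    (hu₁ σ _ fun x _ ↦ by rw [hσ x, Units.val_one, one_smul])) hfixOpen
  have hopen₂ : IsOpen (ψ₂.ker : Set GG) := Subgroup.isOpen_mono (fun σ hσ ↦ Units.ext
    (hu₂ σ _ fun x ↦ by rw [hσ x, Units.val_one, one_smul, sub_self]; exact N.zero_mem)) hfixOpen
  -- away from `p` both characters are unramified
  have hunr : ∀ ℓ : ℕ, ℓ.Prime → ℓ ≠ p → ∀ A : ValuationSubring QQb, A.LiesOverPrime ℓ →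
      ∀ σ ∈ A.inertiaSubgroupIn ℚ, ψ₁ σ = 1 ∧ ψ₂ σ = 1 := by
    intro ℓ hℓ hℓp A hA σ hσ
    have hsq : ∀ x : V, σ • (σ • x - x) = σ • x - x := by
      intro x
      by_cases h2 : ℓ = 2
      · subst h2
        obtain ⟨L, -, hL, -⟩ := htwo A hA
        exact (hL σ hσ).1 _ ((hL σ hσ).2 x)
      · exact hodd ℓ hℓ h2 hℓp A hA σ hσ _
    have key : ∀ a : ZMod p, (a - 1) * (a - 1) = 0 → a = 1 := fun a h ↦
      sub_eq_zero.mp (mul_self_eq_zero.mp h)
    constructor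
    · refine Units.ext (key _ ?_)
      obtain ⟨v, hvN, hv⟩ := N.ne_bot_iff.mp hN0
      refine (smul_eq_zero.mp (?_ : _ • v = 0)).resolve_right hv
      have h := sub_eq_zero.mpr (hsq v)
      rw [hψ₁ σ v hvN, smul_sub, smul_comm σ, hψ₁ σ v hvN] at h
      rw [← h]
      module
    · refine Units.ext (key _ ?_)
      obtain ⟨v, hv⟩ : ∃ v, v ∉ N := by
        by_contra h
        push Not at h
        exact hN1 (Submodule.eq_top_iff'.mpr h)
      by_contra ha
      refine hv ?_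
      set a : ZMod p := (ψ₂ σ : ZMod p)
      have hm : (a - 1) • (σ • v - a • v) + (σ • (σ • v - v) - a • (σ • v - v)) ∈ N :=
        N.add_mem (N.smul_mem _ (hψ₂ σ v)) (hψ₂ σ _)
      have hm' : ((a - 1) * (a - 1)) • v ∈ N := by
        rw [hsq v] at hm
        have : ((a - 1) * (a - 1)) • v =
            -((a - 1) • (σ • v - a • v) + ((σ • v - v) - a • (σ • v - v))) := by
          simp only [smul_sub, sub_smul, mul_smul, one_smul, neg_add_rev, neg_sub]
          abel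
        rw [this]
        exact N.neg_mem hm
      have h' := N.smul_mem ((a - 1) * (a - 1))⁻¹ hm'
      rwa [smul_smul, inv_mul_cancel₀ ha, one_smul] at h'
  obtain ⟨A₀, hA₀⟩ := FLTAgent.Frobenius.exists_liesOverPrime p hp.out
  obtain ⟨M₀, hM0, hM1, -, hMω, hMq⟩ := hatp A₀ hA₀
  by_cases hNM : N = M₀
  · -- the quotient is unramified everywhere
    have hone : ∀ σ, ψ₂ σ = 1 := eq_one_of_unramified ψ₂ hopen₂ fun ℓ hℓ A hA σ hσ ↦ by
      by_cases hℓp : ℓ = p
      · subst hℓp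
        exact forall_inertia_of_exists ψ₂ hℓ hA₀ (fun τ hτ ↦ Units.ext
          (hu₂ τ _ fun x ↦ by rw [hNM, Units.val_one, one_smul]; exact hMq τ hτ x)) hA hσ
      · exact (hunr ℓ hℓ hℓp A hA σ hσ).2
    refine ⟨N, hst, hN0, hN1, fun σ x ↦ ?_⟩
    simpa [hone σ] using hψ₂ σ x
  -- the subrepresentation is trivial and the quotient is cyclotomic
  have hcompl := isCompl_of_ne hrank hN0 hN1 hM0 hM1 hNM
  have hfix₀ : ∀ σ ∈ A₀.inertiaSubgroupIn ℚ, ∀ x ∈ N, σ • x = x := fun σ hσ x hx ↦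
    sub_eq_zero.mp ((Submodule.eq_bot_iff _).mp hcompl.inf_eq_bot _
      ⟨N.sub_mem (hst σ x hx) hx, hMq σ hσ x⟩)
  have hone : ∀ σ, ψ₁ σ = 1 := eq_one_of_unramified ψ₁ hopen₁ fun ℓ hℓ A hA σ hσ ↦ by
    by_cases hℓp : ℓ = p
    · subst hℓp
      exact forall_inertia_of_exists ψ₁ hℓ hA₀ (fun τ hτ ↦ Units.ext
        (hu₁ τ _ fun x hx ↦ by rw [hfix₀ τ hτ x hx, Units.val_one, one_smul])) hA hσ
    · exact (hunr ℓ hℓ hℓp A hA σ hσ).1
  have hfixN : ∀ σ : GG, ∀ x ∈ N, σ • x = x := fun σ x hx ↦ by simpa [hone σ] using hψ₁ σ x hx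
  let χ : GG →* (ZMod p)ˣ := ψ₂ / omegaChar p
  have hχopen : IsOpen (χ.ker : Set GG) := Subgroup.isOpen_mono
    (H₁ := ψ₂.ker ⊓ (omegaChar p).ker)
    (fun σ hσ ↦ by
      rw [MonoidHom.mem_ker, MonoidHom.div_apply, MonoidHom.mem_ker.mp hσ.1,
        MonoidHom.mem_ker.mp hσ.2, div_one]) (hopen₂.inter (isOpen_ker_omegaChar p))
  have hχ : ∀ σ, χ σ = 1 := eq_one_of_unramified χ hχopen fun ℓ hℓ A hA σ hσ ↦ by
    by_cases hℓp : ℓ = p
    · subst hℓp
      refine forall_inertia_of_exists χ hℓ hA₀ (fun τ hτ ↦ ?_) hA hσ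
      rw [MonoidHom.div_apply, div_eq_one]
      refine Units.ext (hu₂ τ _ fun x ↦ ?_)
      rw [omegaChar_eq]
      obtain ⟨y, hy, z, hz, rfl⟩ :=
        Submodule.mem_sup.mp (show x ∈ N ⊔ M₀ by rw [hcompl.sup_eq_top]; trivial)
      rw [smul_add, hfix₀ τ hτ y hy, hMω τ hτ z hz, smul_add, add_sub_add_right_eq_sub]
      exact N.sub_mem hy (N.smul_mem _ hy)
    · rw [MonoidHom.div_apply, (hunr ℓ hℓ hℓp A hA σ hσ).2,
        omegaChar_eq_one_of_inertia hℓ hℓp hA hσ, div_one]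
  have hω : ∀ σ, (ψ₂ σ : ZMod p) = (ExtCitation.cycloExp p σ : ZMod p) := fun σ ↦ by
    have h := hχ σ
    rw [MonoidHom.div_apply, div_eq_one] at h
    rw [h, omegaChar_eq]
  have hfrob : ∀ A : ValuationSubring QQb, A.LiesOverPrime 2 →
      ∃ σ ∈ A.decompositionSubgroup ℚ, (omegaChar p σ : ZMod p) = 2 := by
    intro A hA
    obtain ⟨σ, hσ⟩ := FLTAgent.Frobenius.exists_isFrobeniusAt A 2 Nat.prime_two hA
    exact ⟨σ, hσ.mem_decompositionSubgroup, by
      simpa using omegaChar_frobenius Nat.prime_two (Ne.symm hp2) hA hσ⟩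
  have hadm : ExtCitation.IsAdmissibleExtensionCts p V N := by
    refine ⟨⟨hst, hfixN, fun σ x ↦ hω σ ▸ hψ₂ σ x, ?_, hV, ?_, ?_⟩, hopen⟩
    · rw [Module.natCard_eq_pow_finrank (K := ZMod p) (V := N), Nat.card_zmod,
        finrank_eq_one hrank hN0 hN1, pow_one]
    · intro ℓ hℓ hℓp A hA σ hσ x
      by_cases h2 : ℓ = 2
      · subst h2
        obtain ⟨L, hL1, hLI, hLD⟩ := htwo A hA
        by_cases hLbot : L = ⊥
        · exact sub_eq_zero.mp ((Submodule.mem_bot _).mp (hLbot ▸ (hLI σ hσ).2 x))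
        by_cases hLN : N = L
        · -- a Frobenius at `2` contradicts `ω 2 = 2 ≠ ±1`
          obtain ⟨τ, hτ, hτ2⟩ := hfrob A hA
          have hτω : (ψ₂ τ : ZMod p) = 2 := by rw [hω, ← omegaChar_eq, hτ2]
          rcases hLD τ hτ with h | h
          · have := hu₂ τ 1 fun y ↦ by rw [one_smul, hLN]; exact h y
            rw [hτω, ← sub_eq_zero] at this
            norm_num at this
          · have := hu₂ τ (-1) fun y ↦ by rw [neg_one_smul, sub_neg_eq_add, hLN]; exact h y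
            rw [hτω, ← sub_eq_zero] at this
            have h3 : ((3 : ℕ) : ZMod p) = 0 := by push_cast; linear_combination this
            have := Nat.le_of_dvd (by norm_num) ((ZMod.natCast_eq_zero_iff _ _).mp h3)
            omega
        · have hc := isCompl_of_ne hrank hN0 hN1 hLbot hL1 hLN
          obtain ⟨y, hy, z, hz, rfl⟩ :=
            Submodule.mem_sup.mp (show x ∈ N ⊔ L by rw [hc.sup_eq_top]; trivial)
          rw [smul_add, hfixN σ y hy, (hLI σ hσ).1 z hz]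
      · exact hodd ℓ hℓ h2 hℓp A hA σ hσ x
    · intro A hA
      obtain ⟨M, hm0, hm1, hmD, hmω, -⟩ := hatp A hA
      refine ⟨M, hmD, isCompl_of_ne hrank hN0 hN1 hm0 hm1 fun hNM' ↦ ?_⟩
      -- otherwise the cyclotomic character would be unramified everywhere
      obtain ⟨A₂, hA₂⟩ := FLTAgent.Frobenius.exists_liesOverPrime 2 Nat.prime_two
      obtain ⟨τ, -, hτ2⟩ := hfrob A₂ hA₂
      have htriv := eq_one_of_unramified (omegaChar p) (isOpen_ker_omegaChar p)
        fun ℓ hℓ B hB σ hσ ↦ by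
          by_cases hℓp : ℓ = p
          · subst hℓp
            refine forall_inertia_of_exists _ hℓ hA (fun ν hν ↦ Units.ext ?_) hB hσ
            obtain ⟨v, hvN, hv⟩ := N.ne_bot_iff.mp hN0
            have := hmω ν hν v (hNM' ▸ hvN)
            rw [hfixN ν v hvN] at this
            rw [omegaChar_eq, Units.val_one]
            exact smul_left_injective (ZMod _) hv (by simpa using this.symm)
          · exact omegaChar_eq_one_of_inertia hℓ hℓp hB hσ
      rw [htriv τ, Units.val_one, ← sub_eq_zero] at hτ2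
      norm_num at hτ2
  obtain ⟨C', hC', hcc⟩ := hext V N hadm
  refine ⟨C', hC', fun h ↦ hN1 ?_, fun h ↦ hN0 ?_, fun σ x ↦ ?_⟩
  · simpa [h] using hcc.sup_eq_top
  · simpa [h] using hcc.inf_eq_bot
  · obtain ⟨y, hy, z, hz, rfl⟩ :=
      Submodule.mem_sup.mp (show x ∈ N ⊔ C' by rw [hcc.sup_eq_top]; trivial)
    rw [smul_add, hfixN σ y hy, add_sub_add_left_eq_sub]
    exact C'.sub_mem (hC' σ z hz) hz

end FLTAgent.Reducible
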