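import Fermat.Agent.Torsion.Basic
import Fermat.Agent.Reducible.Abstract
import Fermat.Prelude.Def_FLTPrelim_CofixedLine

/-!
The Frey curve is elliptic, and reducibility gives a cofixed line, given the local facts at `2`,
at `p`, away from `2p`, and the vanishing of `Ext(μ_p, ℤ/p)`.
-/

set_option autoImplicit false

open scoped WeierstrassCurve.Affine
open WeierstrassCurve WeierstrassCurve.Affine.Point

namespace FLTAgent.Reducible

local notation "QQb" => AlgebraicClosure ℚ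
local notation "GG" => (AlgebraicClosure ℚ ≃ₐ[ℚ] AlgebraicClosure ℚ)

variable (P : FreyPackage)

lemma freyCurve_discr :
    P.freyCurve.Δ = ((P.a : ℚ) * P.b * P.c) ^ (2 * P.p) / 256 := by
  have h : (P.a : ℚ) ^ P.p + (P.b : ℚ) ^ P.p = (P.c : ℚ) ^ P.p := by exact_mod_cast P.hFLT
  simp only [WeierstrassCurve.Δ, FreyPackage.freyCurve, b₂, b₄, b₆, b₈]
  rw [mul_comm 2 P.p, pow_mul, mul_pow, mul_pow, ← h]
  ring

lemma freyCurve_discr_ne_zero : P.freyCurve.Δ ≠ 0 := by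
  rw [freyCurve_discr]
  exact div_ne_zero (pow_ne_zero _ (by exact_mod_cast P.habc0)) (by norm_num)

lemma isElliptic_freyCurve : P.freyCurve.IsElliptic :=
  ⟨isUnit_iff_ne_zero.mpr (freyCurve_discr_ne_zero P)⟩

lemma card_torsion_frey :
    Nat.card (Submodule.torsionBy ℤ (P.freyCurve⁄QQb).Point P.p) = P.p ^ 2 :=
  have := isElliptic_freyCurve P
  FLTAgent.Torsion.card_torsionBy_rat P.freyCurve P.hp0

lemma isOpen_fixing_frey :
    IsOpen {σ : GG | ∀ x : Submodule.torsionBy ℤ (P.freyCurve⁄QQb).Point P.p, σ • x = x} := by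
  have := isElliptic_freyCurve P
  have := FLTAgent.Torsion.finite_torsionBy_rat P.freyCurve P.hp0
  have : Algebra.IsAlgebraic ℚ QQb := AlgebraicClosure.isAlgebraic ℚ
  exact FLTAgent.Torsion.isOpen_fixing_torsionBy (S := ℚ) (W := P.freyCurve) (K := QQb) (n := P.p)

/-- A reducible mod `p` Frey representation has a stable line. -/
lemma exists_stable_line
    (hred : ¬ GaloisRepIsIrreducible (K := QQb) ℚ P.freyCurve P.p) :
    ∃ N : Submodule (ZMod P.p) (Submodule.torsionBy ℤ (P.freyCurve⁄QQb).Point P.p),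
      IsGaloisStable ℚ N ∧ N ≠ ⊥ ∧ N ≠ ⊤ := by
  have hcard := card_torsion_frey P
  have : Nontrivial (Submodule.torsionBy ℤ (P.freyCurve⁄QQb).Point P.p) := by
    by_contra h
    rw [not_nontrivial_iff_subsingleton] at h
    have h1 : Nat.card (Submodule.torsionBy ℤ (P.freyCurve⁄QQb).Point P.p) = 1 :=
      Nat.card_unique
    rw [hcard] at h1
    exact P.pp.one_lt.ne' (Nat.pow_eq_one.mp h1 |>.resolve_right two_ne_zero)
  unfold GaloisRepIsIrreducible at hred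
  push Not at hred
  exact hred this

/-- `S13` from its local inputs. -/
theorem cofixedLine_of_local
    (hred : ¬ GaloisRepIsIrreducible (K := QQb) ℚ P.freyCurve P.p)
    (hext : haveI : Fact P.p.Prime := ⟨P.pp⟩; ExtCitation.ExtVanishingCts P.p)
    (hodd : ∀ ℓ : ℕ, ℓ.Prime → ℓ ≠ 2 → ℓ ≠ P.p → P.GaloisRepUnramifiedAt ℓ)
    (htwo : ∀ A : ValuationSubring QQb, A.LiesOverPrime 2 →
      ∃ L : Submodule (ZMod P.p) (Submodule.torsionBy ℤ (P.freyCurve⁄QQb).Point P.p), L ≠ ⊤ ∧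
        (∀ σ ∈ A.inertiaSubgroupIn ℚ, (∀ x ∈ L, σ • x = x) ∧ ∀ x, σ • x - x ∈ L) ∧
        (∀ σ ∈ A.decompositionSubgroup ℚ, (∀ x, σ • x - x ∈ L) ∨ (∀ x, σ • x + x ∈ L)))
    (hatp : ∀ A : ValuationSubring QQb, A.LiesOverPrime P.p →
      haveI : Fact P.p.Prime := ⟨P.pp⟩
      ∀ N : Submodule (ZMod P.p) (Submodule.torsionBy ℤ (P.freyCurve⁄QQb).Point P.p),
        IsGaloisStable ℚ N → N ≠ ⊥ → N ≠ ⊤ →
      ∃ M : Submodule (ZMod P.p) (Submodule.torsionBy ℤ (P.freyCurve⁄QQb).Point P.p),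
        M ≠ ⊥ ∧ M ≠ ⊤ ∧
        (∀ σ ∈ A.decompositionSubgroup ℚ, ∀ x ∈ M, σ • x ∈ M) ∧
        (∀ σ ∈ A.inertiaSubgroupIn ℚ, ∀ x ∈ M,
          σ • x = (ExtCitation.cycloExp P.p σ : ZMod P.p) • x) ∧
        (∀ σ ∈ A.inertiaSubgroupIn ℚ, ∀ x, σ • x - x ∈ M)) :
    HasGaloisStableCofixedLine (K := QQb) ℚ P.freyCurve P.p := by
  have : Fact P.p.Prime := ⟨P.pp⟩
  obtain ⟨N, hst, hN0, hN1⟩ := exists_stable_line P hred
  obtain ⟨N', h1, h2, h3, h4⟩ := exists_cofixed_line (p := P.p) P.hp5 (card_torsion_frey P)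
    (isOpen_fixing_frey P) hext (fun ℓ hℓ h2 hp A hA σ hσ x ↦ hodd ℓ hℓ h2 hp A hA σ hσ x)
    htwo (fun A hA ↦ hatp A hA N hst hN0 hN1) hN0 hN1 hst
  exact ⟨N', h1, h2, h3, h4⟩

end FLTAgent.Reducible
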