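import Fermat.Agent.Reducible.Frey
import Fermat.Agent.LocalEC.FreyTwo
import Fermat.Agent.LocalEC.FreyAtP
import Fermat.Agent.S05

/-!
The reducible Frey representation has a cofixed line, given the vanishing of the extension classes.
-/

set_option autoImplicit false

open scoped WeierstrassCurve.Affine

namespace FLTAgent.Reducible

open WeierstrassCurve WeierstrassCurve.Affine WeierstrassCurve.Affine.Point

/-- `S13` from `S14`. -/
theorem cofixedLine_of_extVanishing (P : FreyPackage)
    (hred : ¬ GaloisRepIsIrreducible (K := AlgebraicClosure ℚ) ℚ P.freyCurve P.p)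
    (hext : haveI : Fact P.p.Prime := ⟨P.pp⟩; ExtCitation.ExtVanishingCts P.p) :
    HasGaloisStableCofixedLine (K := AlgebraicClosure ℚ) ℚ P.freyCurve P.p :=
  cofixedLine_of_local P hred hext
    (fun ℓ hℓ h2 hp ↦ Fermat.Agent.S05.result P hℓ h2 hp)
    (fun _ hA ↦ LocalEC.frey_local_two P hA)
    (fun _ hA _ hst h0 h1 ↦ LocalEC.frey_local_at_p P h0 h1 hst hA)

end FLTAgent.Reducible
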